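/-
S58 library (helper4), block Tr: **`TateUnip`** — for a semistable `W` (`Δ ≠ 0`) the `lam`-adic Tate
module (`lam` odd) is unipotent on inertia at every prime `q ≠ lam`:
* good `q`: inertia fixes all `lam`-power torsion (helper9's `Red.smul_eq_self_of_redPt`), so
  `ρ(σ) = 1` (helper6's `tateRep_eq_one_of_fix`);
* multiplicative `q`: a fixed point of exact order `lam^k` for every `k` (`MultFixed`, block E2) and
  `det ρ(σ) = χ_lam(σ) = 1` (`S35lib.Gal.det_eq_chiAdic` fed by `TateFrob`), so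
  `charpoly ρ(σ) = (X - 1)²` (helper6's `tateRep_charpoly_of_fixed`).
-/
import Fermat.Agent.S58lib.Interface
import Fermat.Agent.S58lib.Tate.Transport
import Fermat.Agent.S35lib.Gal.DetCyclo

set_option autoImplicit false
set_option linter.style.haveILetI false
set_option linter.unusedSectionVars false

noncomputable section

namespace Fermat.Agent.S58lib.Tr

open WeierstrassCurve WeierstrassCurve.Affine.Point Polynomial
open scoped WeierstrassCurve.Affine
open Fermat.Agent.S58lib.Tate Fermat.Agent.S29lib.S30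

/-- a prime `ℓ ≠ lam` does not divide `lam ^ k`. -/
theorem not_dvd_pow_of_ne {ℓ lam : ℕ} (hℓ : ℓ.Prime) (hlam : lam.Prime) (h : ℓ ≠ lam) (k : ℕ) :
    ¬ ℓ ∣ lam ^ k := fun hd =>
  h ((Nat.prime_dvd_prime_iff_eq hℓ hlam).mp (hℓ.dvd_of_dvd_pow hd))

/-- `det = χ_lam` on the Tate module. -/
theorem tateFam_det_eq_chiAdic (W : WeierstrassCurve ℤ) (hΔ : W.Δ ≠ 0)
    (hTF : TateFrob W (tateFam W hΔ)) (lam : ℕ) [Fact lam.Prime] (σ : GQ) :
    LinearMap.det ((tateFam W hΔ lam).ρ σ) =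
      ((chiAdic lam (IsLocalRing.maximalIdeal ℤ_[lam]) (natCast_mem_maximalIdeal_padicInt lam) σ :
        ℤ_[lam]ˣ) : ℤ_[lam]) := by
  refine Fermat.Agent.S35lib.Gal.det_eq_chiAdic lam (natCast_mem_maximalIdeal_padicInt lam)
    (tateFam W hΔ lam) (insert lam W.Δ.natAbs.primeFactors) ?_ σ
  intro ℓ hℓ hℓS A hA φ hφ
  have hℓlam : ℓ ≠ lam := fun h => hℓS (h ▸ Finset.mem_insert_self _ _)
  have hgood : ¬ (ℓ : ℤ) ∣ W.Δ := fun h =>
    hℓS (Finset.mem_insert_of_mem (Nat.mem_primeFactors.mpr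
      ⟨hℓ, Int.natCast_dvd.mp h, Int.natAbs_ne_zero.mpr hΔ⟩))
  exact ⟨_, hTF lam ℓ hℓ hℓlam hgood A hA φ hφ⟩

/-- **`TateUnip`.** -/
theorem tateUnip_of_multFixed (W : WeierstrassCurve ℤ) (hΔ : W.Δ ≠ 0)
    (hss : W.IsSemistableModel) (hMF : MultFixed W) (hTF : TateFrob W (tateFam W hΔ)) :
    TateUnip (tateFam W hΔ) := by
  intro lam hlamF hlam2 q hq hqlam A hA σ hσ
  classical
  have hlam : lam.Prime := hlamF.out
  have hn : ∀ k : ℕ, ¬ q ∣ lam ^ k := not_dvd_pow_of_ne hq hlam hqlam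
  by_cases hbad : (q : ℤ) ∣ W.Δ
  · -- multiplicative reduction
    have hodd : ∀ k : ℕ, Odd (lam ^ k) := fun k => (hlam.odd_of_ne_two hlam2).pow
    have hfix : ∀ k : ℕ, ∃ P : Pts (WQ' W), addOrderOf P = lam ^ k ∧ σ • P = P := by
      intro k
      obtain ⟨P, hP, hPσ⟩ := hMF q hq hbad (hss q hq hbad) (lam ^ k) (hodd k) (hn k) A hA
      exact ⟨P, hP, hPσ σ hσ⟩
    have hdet : LinearMap.det ((tateFam W hΔ lam).ρ σ) = 1 := by
      rw [tateFam_det_eq_chiAdic W hΔ hTF lam σ,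
        chiAdic_of_mem_inertia _ _ hq hqlam hA hσ]
      rfl
    exact tateFam_charpoly_of_fixed W hΔ lam σ hfix hdet
  · -- good reduction
    haveI : Fact q.Prime := ⟨hq⟩
    haveI : CharP (IsLocalRing.ResidueField A) q := Red.charP_residueField hq hA
    letI : Algebra (ZMod q) (IsLocalRing.ResidueField A) := ZMod.algebra _ q
    have h1 : (tateFam W hΔ lam).ρ σ = 1 := by
      refine tateFam_eq_one_of_fix W hΔ lam σ ?_
      intro k P hP
      have hP0 : (lam ^ k) • P = 0 := mem_tors.mp hP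
      obtain ⟨Pb, hPb⟩ := Red.exists_redPt_int W hq hbad hA (hn k) hP0
      exact Red.smul_eq_self_of_redPt (Red.redCurve_int W A)
        (Fermat.Agent.S05lib.val_natCast_eq_one_of_not_dvd hq hA (hn k)) hPb hP0 hσ
    rw [h1]
    have h2 : LinearMap.charpoly (1 : Module.End ℤ_[lam] (tateFam W hΔ lam).V) =
        (X - 1) ^ Module.finrank ℤ_[lam] (tateFam W hΔ lam).V := LinearMap.charpoly_one
    rw [h2, (tateFam W hΔ lam).finrank_eq]

end Fermat.Agent.S58lib.Tr
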